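import Fermat.Agent.Root.SummaryRealPeriod
import Mathlib.Analysis.Analytic.Binomial
import Mathlib.Analysis.SpecialFunctions.Integrals.Basic
import Mathlib.Data.Nat.Choose.Central

/-!
# The complete integral as a hypergeometric series

`∫ dφ / √(1 - x sin² φ)` over a quarter period is `π/2 ∑ (C(2n,n)/4^n)² x^n` and is
`π / (2 agm (1, √(1-x)))`.
-/

set_option autoImplicit false
set_option linter.style.haveILetI false

noncomputable section

open MeasureTheory Set
open scoped Real Interval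

namespace FA.Hypergeometric

/-- `C(2n,n) / 4^n`. -/
def halfCoeff (n : ℕ) : ℝ := (n.centralBinom : ℝ) / 4 ^ n

/-- `∑ (C(2n,n)/4^n)² x^n`. -/
def hypF (x : ℝ) : ℝ := ∑' n : ℕ, halfCoeff n ^ 2 * x ^ n

theorem halfCoeff_succ (n : ℕ) :
    halfCoeff (n + 1) = halfCoeff n * ((2 * n + 1) / (2 * n + 2)) := by
  have h : ((n : ℝ) + 1) * (n + 1).centralBinom = 2 * (2 * n + 1) * n.centralBinom := by
    exact_mod_cast Nat.succ_mul_centralBinom_succ n
  have h0 : (n : ℝ) + 1 ≠ 0 := by positivity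
  rw [halfCoeff, halfCoeff, pow_succ]
  field_simp
  linear_combination 2 * h

theorem halfCoeff_eq_prod (n : ℕ) :
    halfCoeff n = ∏ i ∈ Finset.range n, (2 * (i : ℝ) + 1) / (2 * i + 2) := by
  induction n with
  | zero => simp [halfCoeff]
  | succ n ih => rw [Finset.prod_range_succ, ← ih, halfCoeff_succ]

theorem halfCoeff_mem (n : ℕ) : halfCoeff n ∈ Icc (0 : ℝ) 1 := by
  refine ⟨by rw [halfCoeff]; positivity, ?_⟩
  rw [halfCoeff, div_le_one (by positivity)]
  exact_mod_cast n.centralBinom_le_four_pow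

theorem choose_half (n : ℕ) : Ring.choose ((1 / 2 : ℝ) + n - 1) n = halfCoeff n := by
  have h : (n.factorial : ℝ) * Ring.multichoose (1 / 2 : ℝ) n =
      (n.factorial : ℝ) * halfCoeff n := by
    rw [← nsmul_eq_mul, Ring.factorial_nsmul_multichoose_eq_ascPochhammer,
      Polynomial.ascPochhammer_smeval_eq_eval]
    induction n with
    | zero => simp [halfCoeff]
    | succ n ih =>
      rw [ascPochhammer_succ_eval, ih, Nat.factorial_succ, halfCoeff_succ]
      push_cast
      field_simp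
      ring
  rw [← mul_left_cancel₀ (Nat.cast_ne_zero.mpr n.factorial_ne_zero) h, Ring.multichoose_eq]

theorem hasSum_inv_sqrt {x : ℝ} (hx : |x| < 1) :
    HasSum (fun n : ℕ => halfCoeff n * x ^ n) (√(1 - x))⁻¹ := by
  have h := (Real.one_div_one_sub_rpow_hasFPowerSeriesOnBall_zero (1 / 2)).hasSum (y := x)
    (by rw [Metric.mem_eball, edist_zero_right, ← ofReal_norm, Real.norm_eq_abs]
        exact ENNReal.ofReal_lt_one.mpr hx)
  simp only [zero_add, FormalMultilinearSeries.ofScalars_apply_eq, smul_eq_mul, choose_half] at h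
  rwa [← Real.sqrt_eq_rpow, one_div] at h

theorem integral_sin_pow_quarter (n : ℕ) :
    ∫ φ in (0 : ℝ)..π / 2, Real.sin φ ^ (2 * n) = π / 2 * halfCoeff n := by
  have hc : ∀ a b : ℝ, IntervalIntegrable (fun φ => Real.sin φ ^ (2 * n)) volume a b := fun a b =>
    (Real.continuous_sin.pow _).intervalIntegrable a b
  have h := intervalIntegral.integral_comp_sub_left (a := 0) (b := π / 2)
    (fun φ => Real.sin φ ^ (2 * n)) π
  simp only [Real.sin_pi_sub, sub_zero, show π - π / 2 = π / 2 by ring] at h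
  have := intervalIntegral.integral_add_adjacent_intervals (hc 0 (π / 2)) (hc (π / 2) π)
  rw [← h, integral_sin_pow_even, ← halfCoeff_eq_prod] at this
  linarith

theorem hasSum_hypF {x : ℝ} (hx0 : 0 ≤ x) (hx1 : x < 1) :
    HasSum (fun n : ℕ => halfCoeff n ^ 2 * x ^ n)
      (2 / π * ∫ φ in (0 : ℝ)..π / 2, (√(1 - x * Real.sin φ ^ 2))⁻¹) := by
  have h : HasSum (fun n : ℕ => ∫ φ in (0 : ℝ)..π / 2,
      halfCoeff n * x ^ n * Real.sin φ ^ (2 * n))
      (∫ φ in (0 : ℝ)..π / 2, (√(1 - x * Real.sin φ ^ 2))⁻¹) := by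
    refine intervalIntegral.hasSum_integral_of_dominated_convergence (fun n _ => x ^ n)
      (fun n => ((Real.continuous_sin.pow _).const_mul _).aestronglyMeasurable)
      (fun n => ae_of_all _ fun φ _ => ?_)
      (ae_of_all _ fun φ _ => summable_geometric_of_lt_one hx0 hx1) intervalIntegrable_const
      (ae_of_all _ fun φ _ => ?_)
    · rw [norm_mul, norm_mul, norm_pow, norm_pow, Real.norm_of_nonneg (halfCoeff_mem n).1,
        Real.norm_of_nonneg hx0, Real.norm_eq_abs]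
      calc halfCoeff n * x ^ n * |Real.sin φ| ^ (2 * n) ≤ 1 * x ^ n * 1 := by
            gcongr
            · exact (halfCoeff_mem n).2
            · exact pow_le_one₀ (abs_nonneg _) (Real.abs_sin_le_one φ)
        _ = x ^ n := by ring
    · have hy : |x * Real.sin φ ^ 2| < 1 := by
        rw [abs_mul, abs_of_nonneg hx0, abs_of_nonneg (sq_nonneg _)]
        exact (mul_le_of_le_one_right hx0 (Real.sin_sq_le_one φ)).trans_lt hx1
      refine (hasSum_inv_sqrt hy).congr_fun fun n => ?_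
      rw [mul_pow, ← pow_mul]
      ring
  refine (h.mul_left (2 / π)).congr_fun fun n => ?_
  rw [intervalIntegral.integral_const_mul, integral_sin_pow_quarter]
  field_simp

theorem integral_quarter_eq_agm {x : ℝ} (hx1 : x < 1) :
    ∫ φ in (0 : ℝ)..π / 2, (√(1 - x * Real.sin φ ^ 2))⁻¹ =
      π / (2 * (NNReal.agm 1 (√(1 - x)).toNNReal : ℝ)) := by
  set b := √(1 - x) with hbdef
  have hb : 0 < b := Real.sqrt_pos.mpr (sub_pos.mpr hx1)
  have hcos : ∀ φ ∈ Ioo (0 : ℝ) (π / 2), 0 < Real.cos φ := fun φ hφ =>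
    Real.cos_pos_of_mem_Ioo ⟨by linarith [hφ.1, Real.pi_pos], hφ.2⟩
  have hder : ∀ φ ∈ Ioo (0 : ℝ) (π / 2),
      HasDerivWithinAt (fun φ => b * Real.tan φ) (b * (1 / Real.cos φ ^ 2)) (Ioo 0 (π / 2)) φ :=
    fun φ hφ => ((Real.hasDerivAt_tan (hcos φ hφ).ne').const_mul b).hasDerivWithinAt
  have hinj : InjOn (fun φ => b * Real.tan φ) (Ioo 0 (π / 2)) := fun φ hφ ψ hψ h =>
    Real.injOn_tan ⟨by linarith [hφ.1, Real.pi_pos], hφ.2⟩
      ⟨by linarith [hψ.1, Real.pi_pos], hψ.2⟩ (mul_left_cancel₀ hb.ne' h)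
  have himg : (fun φ => b * Real.tan φ) '' Ioo 0 (π / 2) = Ioi 0 := by
    refine Subset.antisymm (fun _ ⟨φ, hφ, e⟩ => e ▸ mul_pos hb
      (Real.tan_pos_of_pos_of_lt_pi_div_two hφ.1 hφ.2)) fun y hy => ?_
    exact ⟨Real.arctan (y / b),
      ⟨Real.arctan_pos.mpr (div_pos hy hb), Real.arctan_lt_pi_div_two _⟩,
      by simp only [Real.tan_arctan]; field_simp⟩
  have h := integral_image_eq_integral_abs_deriv_smul measurableSet_Ioo hder hinj
    (fun y => (√((y ^ 2 + 1 ^ 2) * (y ^ 2 + b ^ 2)))⁻¹)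
  rw [himg] at h
  have g := FA.Summary.gauss_agm (a := 1) (b := b.toNNReal) one_pos (Real.toNNReal_pos.mpr hb)
  rw [NNReal.coe_one, Real.coe_toNNReal b hb.le] at g
  rw [intervalIntegral.integral_of_le (by positivity), integral_Ioc_eq_integral_Ioo, ← g, h]
  refine setIntegral_congr_fun measurableSet_Ioo fun φ hφ => ?_
  have hc := hcos φ hφ
  have hA : 0 < 1 - x * Real.sin φ ^ 2 := by
    rcases le_or_gt x 0 with hx | hx
    · nlinarith [sq_nonneg (Real.sin φ)]
    · nlinarith [Real.sin_sq_le_one φ]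
  have e : ((b * Real.tan φ) ^ 2 + 1 ^ 2) * ((b * Real.tan φ) ^ 2 + b ^ 2) =
      (b / Real.cos φ ^ 2) ^ 2 * (1 - x * Real.sin φ ^ 2) := by
    have hbb : b ^ 2 = 1 - x := by rw [hbdef]; exact Real.sq_sqrt (sub_pos.mpr hx1).le
    rw [Real.tan_eq_sin_div_cos]
    field_simp
    linear_combination
      (b ^ 2 * Real.sin φ ^ 2 + 1 + Real.cos φ ^ 2) * Real.sin_sq_add_cos_sq φ +
      Real.sin φ ^ 2 * hbb
  simp only [smul_eq_mul]
  rw [e, Real.sqrt_mul (sq_nonneg _), Real.sqrt_sq (by positivity), abs_of_pos (by positivity),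
    mul_inv, ← mul_assoc]
  field_simp

/-- **Gauss**: `F(x) = 1 / agm(1, √(1-x))`. -/
theorem hypF_eq_agm {x : ℝ} (hx0 : 0 ≤ x) (hx1 : x < 1) :
    hypF x = 1 / (NNReal.agm 1 (√(1 - x)).toNNReal : ℝ) := by
  rw [hypF, (hasSum_hypF hx0 hx1).tsum_eq, integral_quarter_eq_agm hx1]
  field_simp

end FA.Hypergeometric

end
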