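import Fermat.Agent.Carayol.Hasse.Count
import Mathlib.Data.Nat.Choose.Central

/-!
# The period series modulo `p`

For `p = 2 h + 1` and `n ≤ h` one has `C(2n,n) / 4^n = (-1)^n C(h,n)` in characteristic `p`, so
the period series truncated at `h` is Deuring's polynomial.
-/

set_option autoImplicit false
set_option linter.unusedSectionVars false

noncomputable section

namespace FA.Hypergeometric

variable {F : Type*} [Field F] {p : ℕ} [hp : Fact p.Prime] [CharP F p] {h : ℕ}
  (hph : p = 2 * h + 1)

include hph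

/-- `C(2n,n) = (-4)^n C(h,n)`. -/
theorem centralBinom_mod {n : ℕ} (hn : n ≤ h) :
    (n.centralBinom : F) = (-4) ^ n * (h.choose n : F) := by
  induction n with
  | zero => simp
  | succ n ih =>
    have h0 : ((n + 1 : ℕ) : F) ≠ 0 := fun e => by
      rw [CharP.cast_eq_zero_iff F p] at e
      have := Nat.le_of_dvd n.succ_pos e
      omega
    have hp0 : ((2 * h + 1 : ℕ) : F) = 0 := by rw [← hph]; exact CharP.cast_eq_zero F p
    have e1 := congrArg (Nat.cast : ℕ → F) (Nat.succ_mul_centralBinom_succ n)
    have e2 := congrArg (Nat.cast : ℕ → F) (Nat.choose_succ_right_eq h n)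
    push_cast [Nat.cast_sub (show n ≤ h by omega)] at e1 e2 h0 hp0
    refine mul_left_cancel₀ h0 ?_
    rw [pow_succ]
    linear_combination e1 + 2 * (2 * (n : F) + 1) * ih (by omega) +
      4 * (-4 : F) ^ n * e2 + 2 * (-4 : F) ^ n * (h.choose n : F) * hp0

theorem four_ne_zero' : (4 : F) ≠ 0 := by
  intro e
  have : ((4 : ℕ) : F) = 0 := by exact_mod_cast e
  rw [CharP.cast_eq_zero_iff F p] at this
  have h2 := (Nat.prime_dvd_prime_iff_eq hp.out Nat.prime_two).mp
    (hp.out.dvd_of_dvd_pow (n := 2) (by simpa using this))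
  omega

/-- The truncated period series is Deuring's polynomial. -/
theorem truncated_eq_hPoly (c : F) :
    ∑ n ∈ Finset.range (h + 1), ((n.centralBinom : F) / 4 ^ n) ^ 2 * c ^ n =
      (FA.Carayol.hPoly h F).eval c := by
  rw [FA.Carayol.eval_hPoly]
  refine Finset.sum_congr rfl fun n hn => ?_
  rw [Finset.mem_range] at hn
  rw [centralBinom_mod hph (by omega), neg_pow (4 : F) n, mul_assoc, mul_div_assoc,
    mul_div_cancel_left₀ _ (pow_ne_zero n (four_ne_zero' hph)), mul_pow, ← pow_mul,
    mul_comm n 2, pow_mul, neg_one_sq, one_pow, one_mul]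

end FA.Hypergeometric

end
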